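import Mathlib
import Fermat.Agent.S13.NodeComp
import Fermat.Agent.S13.NodeRedCard
import Fermat.Agent.EC.Tor.Main

/-!
# Program E (S58), block MULT, node (M4): a point of `E₀` of exact order `m`

`K` algebraically closed with a valuation `v`, `W : y² + a₁xy = x³ + a₂x² + a₄x` with
`S05.NodeData v W α β` (node at `(0,0)` of the reduction), `Δ ≠ 0`, and `m` a `v`-unit.  Then

* `#E[m] = m²` (`EC.Tor.Main.card_torsion`);
* `#E[m] ≤ m · #(E[m] ∩ E₀)` (`S13.NodeComp.card_le_mul_card_inf_E0sub`: the component group has at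
  most `m` elements killed by `m`);
* `#(E[m] ∩ E₀) ≤ m` and `E[m] ∩ E₀` embeds multiplicatively into the residue field through the
  reduction character `redU` (`S13.NodeRed`);

hence `E[m] ∩ E₀` is cyclic of order `m`: **`exists_inE0_addOrderOf_eq`** — there is a point of `E₀`
of exact order `m`.
-/

set_option autoImplicit false

namespace Fermat.Agent.EC.Mult.Cyclic

open WeierstrassCurve WeierstrassCurve.Affine Fermat.Agent.S05 Fermat.Agent.S13.NodeComp
  Fermat.Agent.S13.NodeRed

variable {K : Type*} [Field K] [DecidableEq K] [IsAlgClosed K] {Γ₀ : Type*}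
  [LinearOrderedCommGroupWithZero Γ₀]
variable {v : Valuation K Γ₀} {W : WeierstrassCurve K} {α β : K}

/-- the `m`-torsion subgroup of the group of points -/
def tors (W : WeierstrassCurve K) (m : ℕ) : AddSubgroup W.toAffine.Point :=
  (Submodule.torsionBy ℤ W.toAffine.Point (m : ℤ)).toAddSubgroup

omit [IsAlgClosed K] in
theorem mem_tors_iff {m : ℕ} {P : W.toAffine.Point} : P ∈ tors W m ↔ m • P = 0 := by
  unfold tors
  rw [Submodule.mem_toAddSubgroup, Submodule.mem_torsionBy_iff, natCast_zsmul]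

/-- `#E[m] = m²` -/
theorem card_tors (hΔ0 : W.Δ ≠ 0) {m : ℕ} (hm : (m : K) ≠ 0) : Nat.card (tors W m) = m ^ 2 := by
  rw [← Fermat.Agent.EC.Tor.Main.card_torsion W.toAffine hΔ0 hm]
  exact Nat.card_congr (Equiv.subtypeEquivRight fun _ => Iff.rfl)

/-- **A point of `E₀` of exact order `m`**, `m` prime to the residue characteristic. -/
theorem exists_inE0_addOrderOf_eq (hN : NodeData v W α β) (hΔ0 : W.Δ ≠ 0) {m : ℕ}
    (hm : v (m : K) = 1) : ∃ P : W.toAffine.Point, InE0 v W P ∧ addOrderOf P = m := by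
  classical
  have hmK : (m : K) ≠ 0 := by
    intro h
    rw [h, map_zero] at hm
    exact zero_ne_one hm
  have hm0 : 0 < m := Nat.pos_of_ne_zero (by rintro rfl; simp at hmK)
  have : NeZero m := ⟨hm0.ne'⟩
  have hHk : ∀ P ∈ tors W m, m • P = 0 := fun P hP => mem_tors_iff.mp hP
  have hcard : Nat.card (tors W m) = m ^ 2 := card_tors hΔ0 hmK
  have h1 : Nat.card (tors W m) ≤ m * Nat.card ((E0sub hN).addSubgroupOf (tors W m)) :=
    card_le_mul_card_inf_E0sub hN m (tors W m) hHk
  obtain ⟨hfin, h2⟩ := finite_and_card_inf_E0sub_le hN hm0 hm (tors W m) hHk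
  have h3 : Nat.card ((E0sub hN).addSubgroupOf (tors W m)) =
      Nat.card ↥(tors W m ⊓ E0sub hN) := by
    rw [inf_comm, ← AddSubgroup.inf_addSubgroupOf_right]
    exact Nat.card_congr (AddSubgroup.addSubgroupOfEquivOfLe inf_le_right).toEquiv
  have hG₀card : Nat.card ↥(tors W m ⊓ E0sub hN) = m := by
    have h4 : m * m ≤ m * Nat.card ↥(tors W m ⊓ E0sub hN) := by
      rw [← h3, ← pow_two, ← hcard]
      exact h1
    have h5 : m ≤ Nat.card ↥(tors W m ⊓ E0sub hN) := Nat.le_of_mul_le_mul_left h4 hm0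
    omega
  -- the reduction character embeds `E[m] ∩ E₀` into the residue field
  have hE0 : ∀ P : ↥(tors W m ⊓ E0sub hN), InE0 v W (P : W.toAffine.Point) := fun P =>
    (mem_E0sub_iff hN _).mp (AddSubgroup.mem_inf.mp P.2).2
  have hT : ∀ P : ↥(tors W m ⊓ E0sub hN), m • (P : W.toAffine.Point) = 0 := fun P =>
    hHk _ (AddSubgroup.mem_inf.mp P.2).1
  let φ : Multiplicative ↥(tors W m ⊓ E0sub hN) →* ResK v :=
    { toFun := fun P => redU v α β ((Multiplicative.toAdd P : ↥(tors W m ⊓ E0sub hN)) :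
        W.toAffine.Point)
      map_one' := redU_zero
      map_mul' := fun P Q => redU_add hN (hE0 (Multiplicative.toAdd P))
        (hE0 (Multiplicative.toAdd Q)) }
  have hφ : Function.Injective φ := by
    intro P Q hPQ
    have hinj := redU_injOn (W := W) hN hm
    have := hinj ⟨hE0 (Multiplicative.toAdd P), hT (Multiplicative.toAdd P)⟩
      ⟨hE0 (Multiplicative.toAdd Q), hT (Multiplicative.toAdd Q)⟩ hPQ
    exact Multiplicative.toAdd.injective (Subtype.ext this)
  have : Finite ↥(tors W m ⊓ E0sub hN) := hfin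
  have : IsCyclic (Multiplicative ↥(tors W m ⊓ E0sub hN)) :=
    isCyclic_of_injective_ringHom φ hφ
  have : IsAddCyclic ↥(tors W m ⊓ E0sub hN) := isCyclic_multiplicative_iff.mp inferInstance
  obtain ⟨g, hg⟩ := IsAddCyclic.exists_generator (α := ↥(tors W m ⊓ E0sub hN))
  refine ⟨(g : W.toAffine.Point), hE0 g, ?_⟩
  rw [AddSubgroup.addOrderOf_coe, addOrderOf_eq_card_of_forall_mem_zmultiples hg, hG₀card]

end Fermat.Agent.EC.Mult.Cyclic
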