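import Mathlib
import Fermat.Agent.S05.Defs
import Fermat.Agent.S05.Sep
import Fermat.Agent.S05.Kernel

/-!
# Program E (S58), block MULT, node (M1): inertia fixes the torsion points with non-singular reduction

`K` a field with a valuation `v`, `W` a Weierstrass curve over `K` with `v`-integral coefficients (ANY
model: no normal form, all residue characteristics), `σ` an inertia-like endomorphism of `K` inducing
`f` on the points (`S05.InertiaLike`).  A torsion point of order prime to the residue characteristic
whose reduction is a NON-SINGULAR point of the reduced curve (one of the two partial derivatives is a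
unit) is fixed by `f`: `f P - P` lies in the kernel of reduction (`S05.sub_inKer_of_congr`), which
has no such torsion (`S05.eq_zero_of_inKer_of_nsmul_eq_zero`).

* `map_eq_self_of_unit_partial` : the statement;
* `eq_zero_of_inKer_torsion` : the kernel of reduction has no `n`-torsion, `v n = 1` (re-export).
-/

set_option autoImplicit false

namespace Fermat.Agent.EC.Mult.Fixed

open WeierstrassCurve WeierstrassCurve.Affine Fermat.Agent.S05

variable {K : Type*} [Field K] [DecidableEq K] {Γ₀ : Type*} [LinearOrderedCommGroupWithZero Γ₀]
variable {v : Valuation K Γ₀} {W : WeierstrassCurve K}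

/-- The kernel of reduction has no `n`-torsion for `n` a `v`-unit. -/
theorem eq_zero_of_inKer_torsion (hW : IntegralCoeffs v W) {n : ℕ} (hn : v (n : K) = 1)
    {P : W.toAffine.Point} (hP : InKer v W P) (hT : n • P = 0) : P = 0 :=
  eq_zero_of_inKer_of_nsmul_eq_zero hW hP hn hT

/-- **Inertia fixes the torsion points with non-singular reduction** (order prime to the residue
characteristic), in the curve's own coordinates. -/
theorem map_eq_self_of_unit_partial {σ : K →+* K} {f : W.toAffine.Point →+ W.toAffine.Point}
    (hW : IntegralCoeffs v W) (hf : InertiaLike v W σ f) {n : ℕ} (hn : v (n : K) = 1)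
    {x y : K} (h : W.toAffine.Nonsingular x y) (hx : v x ≤ 1) (hy : v y ≤ 1)
    (hns : v (W.a₁ * y - (3 * x ^ 2 + 2 * W.a₂ * x + W.a₄)) = 1 ∨
      v (2 * y + W.a₁ * x + W.a₃) = 1)
    (hT : n • Point.some x y h = 0) : f (Point.some x y h) = Point.some x y h := by
  have hnsub : n • (f (Point.some x y h) - Point.some x y h) = 0 := by
    rw [smul_sub, ← map_nsmul, hT, map_zero, sub_zero]
  suffices hk : InKer v W (f (Point.some x y h) - Point.some x y h) from
    sub_eq_zero.mp (eq_zero_of_inKer_torsion hW hn hk hnsub)
  obtain ⟨h', hfT⟩ := hf.map_some x y h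
  rw [hfT]
  exact sub_inKer_of_congr hW h h' hx hy (hf.sub_lt x hx) (hf.sub_lt y hy) hns

/-- A torsion point (order prime to the residue characteristic) in the kernel of reduction or with
non-singular integral reduction is fixed. -/
theorem map_eq_self_of_inKer (f : W.toAffine.Point →+ W.toAffine.Point)
    (hW : IntegralCoeffs v W) {n : ℕ} (hn : v (n : K) = 1)
    {P : W.toAffine.Point} (hP : InKer v W P) (hT : n • P = 0) : f P = P := by
  rw [eq_zero_of_inKer_torsion hW hn hP hT, map_zero]

end Fermat.Agent.EC.Mult.Fixed
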