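import Mathlib
import Fermat.Agent.S05.Shift

/-!
# Program E (S58), block MULT, node (M2), part 1: the `2`-torsion points and the translated curve

`K` a field with `(2 : K) ≠ 0`, `W` a Weierstrass curve over `K`. The `2`-torsion points of `W`
are the points `(r, tOf W r)` with `r` a root of `ψ₂² = 4x³ + b₂x² + 2b₄x + b₆` and
`tOf W r = -(a₁ r + a₃)/2`. For such a point the translated curve `S05.shiftCurve W r (tOf W r)`
has `a₃ = a₆ = 0`, and, if `r₁ r₂ r₃` are the three roots (`IsRoots`, Vieta form), its `a₄` is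
`(r₁ - r₂)(r₁ - r₃)`; moreover `Δ = 16 ((r₁ - r₂)(r₁ - r₃)(r₂ - r₃))²`.
-/

set_option autoImplicit false

namespace Fermat.Agent.EC.Mult.TwoTorsion

open WeierstrassCurve Polynomial Fermat.Agent.S05

variable {K : Type*} [Field K]

/-! ### roots in an algebraically closed field -/

theorem exists_root_cubic [IsAlgClosed K] {a : K} (ha : a ≠ 0) (b c d : K) :
    ∃ x : K, a * x ^ 3 + b * x ^ 2 + c * x + d = 0 := by
  obtain ⟨x, hx⟩ := IsAlgClosed.exists_root (C a * X ^ 3 + C b * X ^ 2 + C c * X + C d)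
    (by rw [degree_cubic ha]; norm_num)
  refine ⟨x, ?_⟩
  have := hx
  simp only [IsRoot.def, eval_add, eval_mul, eval_C, eval_pow, eval_X] at this
  exact this

theorem exists_root_quadratic [IsAlgClosed K] {a : K} (ha : a ≠ 0) (b c : K) :
    ∃ x : K, a * x ^ 2 + b * x + c = 0 := by
  obtain ⟨x, hx⟩ := IsAlgClosed.exists_root (C a * X ^ 2 + C b * X + C c)
    (by rw [degree_quadratic ha]; norm_num)
  refine ⟨x, ?_⟩
  have := hx
  simp only [IsRoot.def, eval_add, eval_mul, eval_C, eval_pow, eval_X] at this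
  exact this

/-! ### the three roots of `ψ₂²` -/

variable (W : WeierstrassCurve K)

/-- the value of `ψ₂² = 4x³ + b₂x² + 2b₄x + b₆` -/
def psi2Sq (x : K) : K := 4 * x ^ 3 + W.b₂ * x ^ 2 + 2 * W.b₄ * x + W.b₆

/-- `r₁ r₂ r₃` are the roots of `ψ₂² = 4x³ + b₂x² + 2b₄x + b₆`, in Vieta form. -/
structure IsRoots (r₁ r₂ r₃ : K) : Prop where
  sum : 4 * (r₁ + r₂ + r₃) = -W.b₂
  pair : 4 * (r₁ * r₂ + r₁ * r₃ + r₂ * r₃) = 2 * W.b₄
  prod : 4 * (r₁ * r₂ * r₃) = -W.b₆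

variable {W}

theorem IsRoots.swap₁₂ {r₁ r₂ r₃ : K} (h : IsRoots W r₁ r₂ r₃) : IsRoots W r₂ r₁ r₃ :=
  ⟨by linear_combination h.sum, by linear_combination h.pair, by linear_combination h.prod⟩

theorem IsRoots.swap₂₃ {r₁ r₂ r₃ : K} (h : IsRoots W r₁ r₂ r₃) : IsRoots W r₁ r₃ r₂ :=
  ⟨by linear_combination h.sum, by linear_combination h.pair, by linear_combination h.prod⟩

theorem IsRoots.swap₁₃ {r₁ r₂ r₃ : K} (h : IsRoots W r₁ r₂ r₃) : IsRoots W r₃ r₂ r₁ :=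
  ⟨by linear_combination h.sum, by linear_combination h.pair, by linear_combination h.prod⟩

theorem IsRoots.rot {r₁ r₂ r₃ : K} (h : IsRoots W r₁ r₂ r₃) : IsRoots W r₂ r₃ r₁ :=
  ⟨by linear_combination h.sum, by linear_combination h.pair, by linear_combination h.prod⟩

/-- the factorisation of `ψ₂²` -/
theorem IsRoots.psi2Sq_eq {r₁ r₂ r₃ : K} (h : IsRoots W r₁ r₂ r₃) (x : K) :
    psi2Sq W x = 4 * ((x - r₁) * (x - r₂) * (x - r₃)) := by
  unfold psi2Sq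
  linear_combination x ^ 2 * h.sum - x * h.pair + h.prod

theorem IsRoots.psi2Sq_root₁ {r₁ r₂ r₃ : K} (h : IsRoots W r₁ r₂ r₃) : psi2Sq W r₁ = 0 := by
  rw [h.psi2Sq_eq]; ring

theorem IsRoots.psi2Sq_root₂ {r₁ r₂ r₃ : K} (h : IsRoots W r₁ r₂ r₃) : psi2Sq W r₂ = 0 := by
  rw [h.psi2Sq_eq]; ring

theorem IsRoots.psi2Sq_root₃ {r₁ r₂ r₃ : K} (h : IsRoots W r₁ r₂ r₃) : psi2Sq W r₃ = 0 := by
  rw [h.psi2Sq_eq]; ring

variable (W)

/-- **The three roots exist** over an algebraically closed field with `2 ≠ 0`. -/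
theorem exists_isRoots [IsAlgClosed K] (h2 : (2 : K) ≠ 0) : ∃ r₁ r₂ r₃ : K, IsRoots W r₁ r₂ r₃ := by
  have h4 : (4 : K) ≠ 0 := by
    have : (4 : K) = 2 * 2 := by norm_num
    rw [this]; exact mul_ne_zero h2 h2
  obtain ⟨r₁, hr₁⟩ := exists_root_cubic h4 W.b₂ (2 * W.b₄) W.b₆
  obtain ⟨r₂, hr₂⟩ := exists_root_quadratic h4 (W.b₂ + 4 * r₁)
    (2 * W.b₄ + W.b₂ * r₁ + 4 * r₁ ^ 2)
  have h3 : 4 * (-(W.b₂ + 4 * r₁) / 4 - r₂) = -(W.b₂ + 4 * r₁) - 4 * r₂ := by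
    field_simp
  refine ⟨r₁, r₂, -(W.b₂ + 4 * r₁) / 4 - r₂, ?_, ?_, ?_⟩
  · linear_combination h3
  · linear_combination (r₁ + r₂) * h3 - hr₂
  · linear_combination (r₁ * r₂) * h3 + hr₁ - r₁ * hr₂

/-! ### the `2`-torsion point over a root and the translated curve -/

/-- the `y`-coordinate of the `2`-torsion point with `x`-coordinate `r` -/
def tOf (r : K) : K := -(W.a₁ * r + W.a₃) / 2

variable {W}

theorem shift_a₃ (h2 : (2 : K) ≠ 0) (r : K) : (shiftCurve W r (tOf W r)).a₃ = 0 := by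
  rw [shiftCurve_a₃]
  unfold tOf
  field_simp
  ring

theorem shift_a₆ (h2 : (2 : K) ≠ 0) {r : K} (hr : psi2Sq W r = 0) :
    (shiftCurve W r (tOf W r)).a₆ = 0 := by
  have h4 : (4 : K) ≠ 0 := by
    have : (4 : K) = 2 * 2 := by norm_num
    rw [this]; exact mul_ne_zero h2 h2
  have key : 4 * (shiftCurve W r (tOf W r)).a₆ = psi2Sq W r := by
    rw [shiftCurve_a₆]
    unfold tOf psi2Sq
    simp only [b₂, b₄, b₆]
    field_simp
    ring
  rw [hr] at key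
  exact (mul_eq_zero.mp key).resolve_left h4

/-- the `2`-torsion point lies on the curve -/
theorem equation_tOf (h2 : (2 : K) ≠ 0) {r : K} (hr : psi2Sq W r = 0) :
    W.toAffine.Equation r (tOf W r) := by
  have h := shift_a₆ h2 hr
  rw [shiftCurve_a₆] at h
  rw [Affine.equation_iff]
  linear_combination (-1 : K) * h

theorem shift_a₄_eq (h2 : (2 : K) ≠ 0) (r : K) :
    2 * (shiftCurve W r (tOf W r)).a₄ = 6 * r ^ 2 + W.b₂ * r + W.b₄ := by
  rw [shiftCurve_a₄]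
  unfold tOf
  simp only [b₂, b₄]
  field_simp
  ring

/-- `a₄` of the translated curve is `ψ₂²'(r₁)/4 = (r₁ - r₂)(r₁ - r₃)`. -/
theorem IsRoots.shift_a₄ (h2 : (2 : K) ≠ 0) {r₁ r₂ r₃ : K} (h : IsRoots W r₁ r₂ r₃) :
    (shiftCurve W r₁ (tOf W r₁)).a₄ = (r₁ - r₂) * (r₁ - r₃) := by
  have h1 := shift_a₄_eq (W := W) h2 r₁
  have key : 2 * (shiftCurve W r₁ (tOf W r₁)).a₄ = 2 * ((r₁ - r₂) * (r₁ - r₃)) := by
    have h4 : (2 : K) * (2 * (2 * (shiftCurve W r₁ (tOf W r₁)).a₄)) =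
        2 * (2 * (2 * ((r₁ - r₂) * (r₁ - r₃)))) := by
      rw [h1]
      linear_combination (4 * r₁) * h.sum - 2 * h.pair
    exact mul_left_cancel₀ h2 (mul_left_cancel₀ h2 h4)
  exact mul_left_cancel₀ h2 key

/-- **the discriminant in terms of the roots** -/
theorem IsRoots.Δ_eq (h2 : (2 : K) ≠ 0) {r₁ r₂ r₃ : K} (h : IsRoots W r₁ r₂ r₃) :
    W.Δ = 16 * ((r₁ - r₂) * (r₁ - r₃) * (r₂ - r₃)) ^ 2 := by
  have h4 : (4 : K) ≠ 0 := by
    have : (4 : K) = 2 * 2 := by norm_num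
    rw [this]; exact mul_ne_zero h2 h2
  have hb2 : W.b₂ = -4 * (r₁ + r₂ + r₃) := by linear_combination h.sum
  have hb4 : W.b₄ = 2 * (r₁ * r₂ + r₁ * r₃ + r₂ * r₃) := by
    have : 2 * W.b₄ = 2 * (2 * (r₁ * r₂ + r₁ * r₃ + r₂ * r₃)) := by
      linear_combination (-1 : K) * h.pair
    exact mul_left_cancel₀ h2 this
  have hb6 : W.b₆ = -4 * (r₁ * r₂ * r₃) := by linear_combination h.prod
  have h4Δ : 4 * W.Δ = -W.b₂ ^ 2 * (W.b₂ * W.b₆ - W.b₄ ^ 2) - 32 * W.b₄ ^ 3 - 108 * W.b₆ ^ 2 +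
      36 * W.b₂ * W.b₄ * W.b₆ := by
    rw [← W.b_relation, WeierstrassCurve.Δ]
    ring
  have key : 4 * W.Δ = 4 * (16 * ((r₁ - r₂) * (r₁ - r₃) * (r₂ - r₃)) ^ 2) := by
    rw [h4Δ, hb2, hb4, hb6]
    ring
  exact mul_left_cancel₀ h4 key

/-- `Δ = -16 A₁ A₂ A₃`, `A_i` the `a₄` of the curve translated to the `i`-th `2`-torsion point -/
theorem IsRoots.Δ_eq_prod (h2 : (2 : K) ≠ 0) {r₁ r₂ r₃ : K} (h : IsRoots W r₁ r₂ r₃) :
    W.Δ = -16 * ((shiftCurve W r₁ (tOf W r₁)).a₄ * (shiftCurve W r₂ (tOf W r₂)).a₄ *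
      (shiftCurve W r₃ (tOf W r₃)).a₄) := by
  rw [h.shift_a₄ h2, h.swap₁₂.shift_a₄ h2, h.swap₁₃.shift_a₄ h2, h.Δ_eq h2]
  ring

end Fermat.Agent.EC.Mult.TwoTorsion
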