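import Mathlib
import Fermat.Agent.S05.Basic
import Fermat.Agent.S05.Integral
import Fermat.Agent.S05.Shift
import Fermat.Agent.EC.Mult.TwoTorsion

/-!
# Program E (S58), block MULT, node (M2), part 2: the `2`-torsion point reducing to the node

`K` an algebraically closed field with `(2 : K) ≠ 0`, `v` a valuation of `K`, `W` a Weierstrass
curve over `K` with `v`-integral coefficients, `v Δ < 1` and `v c₄ = 1` (multiplicative reduction).

**`exists_node_shift`** : there are `v`-integral `r t` such that the translated curve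
`S05.shiftCurve W r t` has `a₃ = a₆ = 0` and `v a₄ < 1`, i.e. `(r, t)` is a `2`-torsion point of `W`
reducing to the node of the reduction. All residue characteristics (`v 2 = 1` and `v 2 < 1`).
-/

set_option autoImplicit false
set_option linter.unusedVariables false

namespace Fermat.Agent.EC.Mult.NodePoint

open WeierstrassCurve Fermat.Agent.S05 Fermat.Agent.EC.Mult.TwoTorsion

variable {K : Type*} [Field K] {Γ₀ : Type*} [LinearOrderedCommGroupWithZero Γ₀]
variable {v : Valuation K Γ₀} {W : WeierstrassCurve K}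

/-! ### small valuation facts -/

theorem val_four_le_one : v (4 : K) ≤ 1 := by
  have : (4 : K) = 2 * 2 := by norm_num
  rw [this]; exact val_mul_le_one val_two_le_one val_two_le_one

theorem val_four_eq_one (h : v (2 : K) = 1) : v (4 : K) = 1 := by
  have : (4 : K) = 2 * 2 := by norm_num
  rw [this, map_mul, h, one_mul]

theorem val_sixteen_eq (x : K) : v (16 * x) = v (4 : K) * v (4 : K) * v x := by
  have : (16 : K) = 4 * 4 := by norm_num
  rw [this, map_mul, map_mul]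

theorem val_sub_le_one {a b : K} (ha : v a ≤ 1) (hb : v b ≤ 1) : v (a - b) ≤ 1 :=
  Valuation.map_sub_le v ha hb

theorem val_b₂_le_one (hW : IntegralCoeffs v W) : v W.b₂ ≤ 1 := by
  unfold b₂
  exact Valuation.map_add_le v (val_pow_le_one hW.a₁ 2) (val_mul_le_one val_four_le_one hW.a₂)

theorem val_b₄_le_one (hW : IntegralCoeffs v W) : v W.b₄ ≤ 1 := by
  unfold b₄
  exact Valuation.map_add_le v (val_mul_le_one val_two_le_one hW.a₄) (val_mul_le_one hW.a₁ hW.a₃)

theorem val_b₆_le_one (hW : IntegralCoeffs v W) : v W.b₆ ≤ 1 := by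
  unfold b₆
  exact Valuation.map_add_le v (val_pow_le_one hW.a₃ 2) (val_mul_le_one val_four_le_one hW.a₆)

/-- in a linearly ordered group with zero: `x * x < 1 → x < 1` -/
theorem lt_one_of_mul_self_lt_one {x : Γ₀} (h : x * x < 1) : x < 1 := by
  by_contra hx
  push Not at hx
  have : (1 : Γ₀) * 1 ≤ x * x := mul_le_mul' hx hx
  rw [one_mul] at this
  exact absurd h (not_lt.mpr this)

/-- in a linearly ordered group with zero: `x * x = 1 → x = 1` -/
theorem eq_one_of_mul_self_eq_one {x : Γ₀} (h : x * x = 1) : x = 1 := by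
  rcases lt_trichotomy x 1 with hx | hx | hx
  · exfalso
    have h1 : x * x ≤ x * 1 := mul_le_mul' le_rfl hx.le
    rw [mul_one, h] at h1
    exact absurd hx (not_lt.mpr h1)
  · exact hx
  · exfalso
    have h1 : x * 1 ≤ x * x := mul_le_mul' le_rfl hx.le
    rw [mul_one, h] at h1
    exact absurd hx (not_lt.mpr h1)

/-- a root of a monic cubic with integral coefficients is integral -/
theorem val_le_one_of_cubic_root {a b c x : K} (ha : v a ≤ 1) (hb : v b ≤ 1) (hc : v c ≤ 1)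
    (hx : x ^ 3 + a * x ^ 2 + b * x + c = 0) : v x ≤ 1 := by
  by_contra hlt
  push Not at hlt
  have hx0 : v x ≠ 0 := fun h => by simp [h] at hlt
  have hxpos : 0 < v x := zero_lt_iff.mpr hx0
  have h12 : v x < v x * v x := by
    calc v x = v x * 1 := (mul_one _).symm
      _ < v x * v x := mul_lt_mul_of_pos_left hlt hxpos
  have h23 : v x * v x < v x * v x * v x := by
    calc v x * v x = v x * v x * 1 := (mul_one _).symm
      _ < v x * v x * v x := mul_lt_mul_of_pos_left hlt (mul_pos hxpos hxpos)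
  have e3 : v (x ^ 3) = v x * v x * v x := by rw [map_pow, pow_succ, pow_two]
  have h1 : v (a * x ^ 2) < v (x ^ 3) := by
    rw [e3, map_mul, map_pow, pow_two]
    calc v a * (v x * v x) ≤ 1 * (v x * v x) := by gcongr
      _ = v x * v x := one_mul _
      _ < v x * v x * v x := h23
  have h2 : v (b * x) < v (x ^ 3) := by
    rw [e3, map_mul]
    calc v b * v x ≤ 1 * v x := by gcongr
      _ = v x := one_mul _
      _ < v x * v x := h12
      _ < v x * v x * v x := h23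
  have h3 : v c < v (x ^ 3) := by
    rw [e3]
    calc v c ≤ 1 := hc
      _ < v x := hlt
      _ < v x * v x := h12
      _ < v x * v x * v x := h23
  have e1 : v (x ^ 3 + a * x ^ 2) = v (x ^ 3) := Valuation.map_add_eq_of_lt_left v h1
  have e2 : v (x ^ 3 + a * x ^ 2 + b * x) = v (x ^ 3) := by
    rw [← e1]; apply Valuation.map_add_eq_of_lt_left; rw [e1]; exact h2
  have e4 : v (x ^ 3 + a * x ^ 2 + b * x + c) = v (x ^ 3) := by
    rw [← e2]; apply Valuation.map_add_eq_of_lt_left; rw [e2]; exact h3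
  rw [hx, map_zero, map_pow] at e4
  exact hx0 ((pow_eq_zero_iff (by norm_num)).mp e4.symm)

/-! ### residue characteristic `≠ 2` -/

/-- `v 2 = 1`: a root of `ψ₂²` is integral -/
theorem val_root_le_one_of_two (hW : IntegralCoeffs v W) (h2v : v (2 : K) = 1) {r : K}
    (hr : psi2Sq W r = 0) : v r ≤ 1 := by
  have h4v : v (4 : K) = 1 := val_four_eq_one h2v
  have h4 : (4 : K) ≠ 0 := fun h => by rw [h, map_zero] at h4v; exact zero_ne_one h4v
  have h2 : (2 : K) ≠ 0 := fun h => by rw [h, map_zero] at h2v; exact zero_ne_one h2v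
  refine val_le_one_of_cubic_root (a := W.b₂ / 4) (b := W.b₄ / 2) (c := W.b₆ / 4) ?_ ?_ ?_ ?_
  · rw [map_div₀, h4v, div_one]; exact val_b₂_le_one hW
  · rw [map_div₀, h2v, div_one]; exact val_b₄_le_one hW
  · rw [map_div₀, h4v, div_one]; exact val_b₆_le_one hW
  · have e : r ^ 3 + W.b₂ / 4 * r ^ 2 + W.b₄ / 2 * r + W.b₆ / 4 = psi2Sq W r / 4 := by
      unfold psi2Sq
      field_simp
      ring
    rw [e, hr, zero_div]

/-! ### residue characteristic `2` -/

/-- `v 2 < 1`, `v c₄ = 1`: `b₂` is a unit -/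
theorem val_b₂_eq_one (hW : IntegralCoeffs v W) (h2v : v (2 : K) < 1) (hc₄ : v W.c₄ = 1) :
    v W.b₂ = 1 := by
  have h24 : v (24 * W.b₄) < 1 := by
    have : (24 : K) * W.b₄ = 2 * (12 * W.b₄) := by ring
    rw [this]
    refine val_mul_lt_one_left h2v (val_mul_le_one ?_ (val_b₄_le_one hW))
    have : (12 : K) = 4 * 3 := by norm_num
    rw [this]; exact val_mul_le_one val_four_le_one val_three_le_one
  have h1 : W.b₂ ^ 2 = W.c₄ + 24 * W.b₄ := by unfold c₄; ring
  have h3 : v (W.b₂ ^ 2) = 1 := by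
    rw [h1, ← hc₄]
    exact Valuation.map_add_eq_of_lt_left v (by rw [hc₄]; exact h24)
  rw [map_pow, pow_two] at h3
  exact eq_one_of_mul_self_eq_one h3

/-- `v 2 < 1`, `v b₂ = 1`: a non-integral root `r` of `ψ₂²` has `v (4 r) = 1` -/
theorem val_four_mul_root (hW : IntegralCoeffs v W) (h2v : v (2 : K) < 1) (hb₂ : v W.b₂ = 1)
    {r : K} (hr : psi2Sq W r = 0) (h1 : 1 < v r) : v (4 : K) * v r = 1 := by
  have hr0 : v r ≠ 0 := fun h => by simp [h] at h1
  have hrpos : 0 < v r := zero_lt_iff.mpr hr0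
  have h12 : v r < v r * v r := by
    calc v r = v r * 1 := (mul_one _).symm
      _ < v r * v r := mul_lt_mul_of_pos_left h1 hrpos
  -- the dominant term among `b₂ r² + 2 b₄ r + b₆`
  have e0 : v (W.b₂ * r ^ 2) = v r * v r := by rw [map_mul, hb₂, one_mul, map_pow, pow_two]
  have hA : v (2 * W.b₄ * r) < v (W.b₂ * r ^ 2) := by
    rw [e0, map_mul]
    have : v (2 * W.b₄) ≤ 1 := val_mul_le_one val_two_le_one (val_b₄_le_one hW)
    calc v (2 * W.b₄) * v r ≤ 1 * v r := by gcongr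
      _ = v r := one_mul _
      _ < v r * v r := h12
  have hB : v W.b₆ < v (W.b₂ * r ^ 2) := by
    rw [e0]
    calc v W.b₆ ≤ 1 := val_b₆_le_one hW
      _ < v r := h1
      _ < v r * v r := h12
  have e1 : v (W.b₂ * r ^ 2 + 2 * W.b₄ * r) = v (W.b₂ * r ^ 2) :=
    Valuation.map_add_eq_of_lt_left v hA
  have e2 : v (W.b₂ * r ^ 2 + 2 * W.b₄ * r + W.b₆) = v (W.b₂ * r ^ 2) := by
    rw [← e1]; apply Valuation.map_add_eq_of_lt_left; rw [e1]; exact hB
  have e3 : 4 * r ^ 3 = -(W.b₂ * r ^ 2 + 2 * W.b₄ * r + W.b₆) := by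
    unfold psi2Sq at hr
    linear_combination hr
  have e4 : v (4 : K) * v r * (v r * v r) = 1 * (v r * v r) := by
    have := congrArg v e3
    rw [Valuation.map_neg, e2, e0, map_mul, map_pow] at this
    have h3 : v r ^ 3 = v r * (v r * v r) := by rw [pow_succ, pow_two, mul_assoc]
    calc v (4 : K) * v r * (v r * v r) = v (4 : K) * (v r * (v r * v r)) := mul_assoc _ _ _
      _ = v (4 : K) * v r ^ 3 := by rw [h3]
      _ = v r * v r := this
      _ = 1 * (v r * v r) := (one_mul _).symm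
  exact mul_right_cancel₀ (mul_ne_zero hr0 hr0) e4

/-- `v 2 < 1`, `v b₂ = 1`, `r₁` a non-integral root: the other two roots are integral -/
theorem val_other_roots_le_one (hW : IntegralCoeffs v W) (h2 : (2 : K) ≠ 0)
    (h2v : v (2 : K) < 1) (hb₂ : v W.b₂ = 1) {r₁ r₂ r₃ : K} (h : IsRoots W r₁ r₂ r₃)
    (h1 : 1 < v r₁) : v r₂ ≤ 1 ∧ v r₃ ≤ 1 := by
  have h4 : (4 : K) ≠ 0 := by
    have : (4 : K) = 2 * 2 := by norm_num
    rw [this]; exact mul_ne_zero h2 h2
  have h4v0 : v (4 : K) ≠ 0 := (Valuation.ne_zero_iff v).mpr h4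
  have hr0 : v r₁ ≠ 0 := fun h => by simp [h] at h1
  have hr10 : r₁ ≠ 0 := (Valuation.ne_zero_iff v).mp hr0
  have h41 : v (4 : K) * v r₁ = 1 := val_four_mul_root hW h2v hb₂ h.psi2Sq_root₁ h1
  -- `c₀ = 4 r₂ r₃`, `c₁ = -4 (r₂ + r₃)`
  have hc₀ : r₁ * (4 * (r₂ * r₃)) = -W.b₆ := by linear_combination h.prod
  have hc₁ : r₁ * (4 * (r₂ + r₃)) = 2 * W.b₄ - 4 * (r₂ * r₃) := by
    linear_combination h.pair
  -- `v (r₂ r₃) ≤ 1`
  have hprod : v (r₂ * r₃) ≤ 1 := by
    have e : v r₁ * (v (4 : K) * v (r₂ * r₃)) = v W.b₆ := by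
      have := congrArg v hc₀
      rwa [map_mul, map_mul, Valuation.map_neg] at this
    have e' : v (r₂ * r₃) = v W.b₆ := by
      rw [← e, ← mul_assoc, mul_comm (v r₁), h41, one_mul]
    rw [e']; exact val_b₆_le_one hW
  -- `v (r₂ + r₃) ≤ 1`
  have hsum : v (r₂ + r₃) ≤ 1 := by
    have e : v r₁ * (v (4 : K) * v (r₂ + r₃)) = v (2 * W.b₄ - 4 * (r₂ * r₃)) := by
      have := congrArg v hc₁
      rwa [map_mul, map_mul] at this
    have e' : v (r₂ + r₃) = v (2 * W.b₄ - 4 * (r₂ * r₃)) := by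
      rw [← e, ← mul_assoc, mul_comm (v r₁), h41, one_mul]
    rw [e']
    exact Valuation.map_sub_le v (val_mul_le_one val_two_le_one (val_b₄_le_one hW))
      (val_mul_le_one val_four_le_one hprod)
  have hneg : v (-(r₂ + r₃)) ≤ 1 := by rw [Valuation.map_neg]; exact hsum
  exact ⟨val_le_one_of_root hneg hprod (by ring), val_le_one_of_root hneg hprod (by ring)⟩

/-- `v 2 < 1`, `v b₂ = 1`, `r₁` a non-integral root: the point over `r₂` reduces to the node -/
theorem val_shift_a₄_lt_one (hW : IntegralCoeffs v W) (h2 : (2 : K) ≠ 0)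
    (h2v : v (2 : K) < 1) (hb₂ : v W.b₂ = 1) (hΔ : v W.Δ < 1) {r₁ r₂ r₃ : K}
    (h : IsRoots W r₁ r₂ r₃) (h1 : 1 < v r₁) :
    v r₂ ≤ 1 ∧ v (shiftCurve W r₂ (tOf W r₂)).a₄ < 1 := by
  obtain ⟨hr₂, hr₃⟩ := val_other_roots_le_one hW h2 h2v hb₂ h h1
  refine ⟨hr₂, ?_⟩
  have h41 : v (4 : K) * v r₁ = 1 := val_four_mul_root hW h2v hb₂ h.psi2Sq_root₁ h1
  have e12 : v (r₁ - r₂) = v r₁ :=
    Valuation.map_sub_eq_of_lt_left v (lt_of_le_of_lt hr₂ h1)
  have e13 : v (r₁ - r₃) = v r₁ :=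
    Valuation.map_sub_eq_of_lt_left v (lt_of_le_of_lt hr₃ h1)
  have e21 : v (r₂ - r₁) = v r₁ := by rw [← Valuation.map_neg, neg_sub]; exact e12
  have hA : v (shiftCurve W r₂ (tOf W r₂)).a₄ = v r₁ * v (r₂ - r₃) := by
    rw [h.swap₁₂.shift_a₄ h2, map_mul, e21]
  have hΔe : v W.Δ = (v r₁ * v (r₂ - r₃)) * (v r₁ * v (r₂ - r₃)) := by
    rw [h.Δ_eq h2, val_sixteen_eq, map_pow, map_mul, map_mul, e12, e13]
    calc v (4 : K) * v (4 : K) * (v r₁ * v r₁ * v (r₂ - r₃)) ^ 2
        = (v (4 : K) * v r₁) * (v (4 : K) * v r₁) *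
          ((v r₁ * v (r₂ - r₃)) * (v r₁ * v (r₂ - r₃))) := by rw [pow_two]; ac_rfl
      _ = (v r₁ * v (r₂ - r₃)) * (v r₁ * v (r₂ - r₃)) := by rw [h41, one_mul, one_mul]
  rw [hA]
  rw [hΔe] at hΔ
  exact lt_one_of_mul_self_lt_one hΔ

/-! ### the statement -/

/-- the point `(r, tOf W r)` over an integral root `r` of `ψ₂²` with `v a₄' < 1` -/
theorem exists_of_root (hW : IntegralCoeffs v W) (h2 : (2 : K) ≠ 0) {r : K}
    (hr : psi2Sq W r = 0) (hr1 : v r ≤ 1) (hA : v (shiftCurve W r (tOf W r)).a₄ < 1) :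
    ∃ r t : K, v r ≤ 1 ∧ v t ≤ 1 ∧ (shiftCurve W r t).a₃ = 0 ∧ (shiftCurve W r t).a₆ = 0 ∧
      v (shiftCurve W r t).a₄ < 1 :=
  ⟨r, tOf W r, hr1, y_integral hW (equation_tOf h2 hr) hr1, shift_a₃ h2 r, shift_a₆ h2 hr, hA⟩

/-- **(M2)** the `2`-torsion point reducing to the node: `v`-integral `r t` such that the translated
curve `shiftCurve W r t` has `a₃ = a₆ = 0` and `v a₄ < 1`. -/
theorem exists_node_shift [IsAlgClosed K] (hW : IntegralCoeffs v W) (hΔ0 : W.Δ ≠ 0)
    (hΔ : v W.Δ < 1) (hc₄ : v W.c₄ = 1) (h2 : (2 : K) ≠ 0) :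
    ∃ r t : K, v r ≤ 1 ∧ v t ≤ 1 ∧ (shiftCurve W r t).a₃ = 0 ∧ (shiftCurve W r t).a₆ = 0 ∧
      v (shiftCurve W r t).a₄ < 1 := by
  obtain ⟨r₁, r₂, r₃, h⟩ := exists_isRoots W h2
  rcases lt_or_eq_of_le (val_two_le_one (v := v) (K := K)) with h2v | h2v
  · -- residue characteristic `2`
    have hb₂ : v W.b₂ = 1 := val_b₂_eq_one hW h2v hc₄
    have h4 : (4 : K) ≠ 0 := by
      have : (4 : K) = 2 * 2 := by norm_num
      rw [this]; exact mul_ne_zero h2 h2
    -- some root is not integral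
    have hsum : 1 < v (r₁ + r₂ + r₃) := by
      have e : v (4 : K) * v (r₁ + r₂ + r₃) = 1 := by
        have := congrArg v h.sum
        rwa [map_mul, Valuation.map_neg, hb₂] at this
      by_contra hle
      push Not at hle
      have h4lt : v (4 : K) < 1 := by
        have : (4 : K) = 2 * 2 := by norm_num
        rw [this]; exact val_mul_lt_one_left h2v val_two_le_one
      have : v (4 : K) * v (r₁ + r₂ + r₃) < 1 := by
        calc v (4 : K) * v (r₁ + r₂ + r₃) ≤ v (4 : K) * 1 := by gcongr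
          _ = v (4 : K) := mul_one _
          _ < 1 := h4lt
      rw [e] at this
      exact lt_irrefl _ this
    by_cases hr₁ : 1 < v r₁
    · obtain ⟨hi, hA⟩ := val_shift_a₄_lt_one hW h2 h2v hb₂ hΔ h hr₁
      exact exists_of_root hW h2 h.psi2Sq_root₂ hi hA
    by_cases hr₂ : 1 < v r₂
    · obtain ⟨hi, hA⟩ := val_shift_a₄_lt_one hW h2 h2v hb₂ hΔ h.swap₁₂ hr₂
      exact exists_of_root hW h2 h.psi2Sq_root₁ hi hA
    by_cases hr₃ : 1 < v r₃
    · obtain ⟨hi, hA⟩ := val_shift_a₄_lt_one hW h2 h2v hb₂ hΔ h.swap₁₃ hr₃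
      exact exists_of_root hW h2 h.psi2Sq_root₂ hi hA
    · exfalso
      push Not at hr₁ hr₂ hr₃
      exact absurd hsum (not_lt.mpr
        (Valuation.map_add_le v (Valuation.map_add_le v hr₁ hr₂) hr₃))
  · -- residue characteristic `≠ 2`
    have hi₁ : v r₁ ≤ 1 := val_root_le_one_of_two hW h2v h.psi2Sq_root₁
    have hi₂ : v r₂ ≤ 1 := val_root_le_one_of_two hW h2v h.psi2Sq_root₂
    have hi₃ : v r₃ ≤ 1 := val_root_le_one_of_two hW h2v h.psi2Sq_root₃
    have h4v : v (4 : K) = 1 := val_four_eq_one h2v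
    have hA₁ : v (shiftCurve W r₁ (tOf W r₁)).a₄ ≤ 1 := by
      rw [h.shift_a₄ h2]
      exact val_mul_le_one (val_sub_le_one hi₁ hi₂) (val_sub_le_one hi₁ hi₃)
    have hA₂ : v (shiftCurve W r₂ (tOf W r₂)).a₄ ≤ 1 := by
      rw [h.swap₁₂.shift_a₄ h2]
      exact val_mul_le_one (val_sub_le_one hi₂ hi₁) (val_sub_le_one hi₂ hi₃)
    have hA₃ : v (shiftCurve W r₃ (tOf W r₃)).a₄ ≤ 1 := by
      rw [h.swap₁₃.shift_a₄ h2]
      exact val_mul_le_one (val_sub_le_one hi₃ hi₂) (val_sub_le_one hi₃ hi₁)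
    have hprod : v (shiftCurve W r₁ (tOf W r₁)).a₄ * v (shiftCurve W r₂ (tOf W r₂)).a₄ *
        v (shiftCurve W r₃ (tOf W r₃)).a₄ < 1 := by
      have e := congrArg v (h.Δ_eq_prod h2)
      rw [neg_mul, Valuation.map_neg, val_sixteen_eq, h4v, one_mul, one_mul, map_mul, map_mul]
        at e
      rw [← e]; exact hΔ
    by_cases h₁ : v (shiftCurve W r₁ (tOf W r₁)).a₄ < 1
    · exact exists_of_root hW h2 h.psi2Sq_root₁ hi₁ h₁
    by_cases h₂ : v (shiftCurve W r₂ (tOf W r₂)).a₄ < 1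
    · exact exists_of_root hW h2 h.psi2Sq_root₂ hi₂ h₂
    by_cases h₃ : v (shiftCurve W r₃ (tOf W r₃)).a₄ < 1
    · exact exists_of_root hW h2 h.psi2Sq_root₃ hi₃ h₃
    · exfalso
      push Not at h₁ h₂ h₃
      have e₁ := le_antisymm hA₁ h₁
      have e₂ := le_antisymm hA₂ h₂
      have e₃ := le_antisymm hA₃ h₃
      rw [e₁, e₂, e₃, one_mul, one_mul] at hprod
      exact lt_irrefl _ hprod

end Fermat.Agent.EC.Mult.NodePoint
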