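import Mathlib
import Fermat.Agent.S05.Basic
import Fermat.Agent.S05.Integral
import Fermat.Agent.S05.Shift
import Fermat.Agent.S05.Node
import Fermat.Agent.EC.Mult.NodePoint

/-!
# Program E (S58), block MULT, node (M3): the node coordinates of the translated curve

`K` a field with a valuation `v`, `W` a Weierstrass curve over `K` with `v`-integral coefficients.

* `integralCoeffs_shift` : a translation by `v`-integral `r t` keeps the coefficients integral.
* `exists_nodeData` : a curve with `a₃ = a₆ = 0`, `v a₄ < 1`, `Δ ≠ 0`, `v c₄ = 1` carries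
  `S05.NodeData` (`K` algebraically closed; no hypothesis on the characteristic).
* `exists_shift_nodeData` : (M2) + the two above: multiplicative reduction (`v Δ < 1`, `v c₄ = 1`)
  ⇒ some integral translate of `W` carries `S05.NodeData`.
* transport back to `W`'s OWN coordinates: `unit_partial_of_shift` (a point of the translated
  curve with unit `x`-coordinate is an integral point of `W` with a unit partial derivative),
  `inKer_of_shift` (non-integral `x`-coordinate ⇒ kernel of reduction of `W`), packaged as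
  `cases_of_inE0_shift`.
-/

set_option autoImplicit false
set_option linter.unusedVariables false

namespace Fermat.Agent.EC.Mult.NodeCoords

open WeierstrassCurve WeierstrassCurve.Affine Fermat.Agent.S05 Fermat.Agent.EC.Mult.TwoTorsion
  Fermat.Agent.EC.Mult.NodePoint

variable {K : Type*} [Field K] {Γ₀ : Type*} [LinearOrderedCommGroupWithZero Γ₀]
variable {v : Valuation K Γ₀} {W : WeierstrassCurve K}

/-! ### integrality of the translated curve -/

/-- **(a0)** a translation by integral `r t` keeps the coefficients integral -/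
theorem integralCoeffs_shift (hW : IntegralCoeffs v W) {r t : K} (hr : v r ≤ 1) (ht : v t ≤ 1) :
    IntegralCoeffs v (shiftCurve W r t) where
  a₁ := hW.a₁
  a₂ := by
    rw [shiftCurve_a₂]
    exact Valuation.map_add_le v hW.a₂ (val_mul_le_one val_three_le_one hr)
  a₃ := by
    rw [shiftCurve_a₃]
    exact Valuation.map_add_le v (Valuation.map_add_le v hW.a₃ (val_mul_le_one hr hW.a₁))
      (val_mul_le_one val_two_le_one ht)
  a₄ := by
    rw [shiftCurve_a₄]
    refine Valuation.map_add_le v (Valuation.map_sub_le v (Valuation.map_add_le v hW.a₄ ?_) ?_) ?_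
    · exact val_mul_le_one (val_mul_le_one val_two_le_one hr) hW.a₂
    · exact val_mul_le_one ht hW.a₁
    · exact val_mul_le_one val_three_le_one (val_pow_le_one hr 2)
  a₆ := by
    rw [shiftCurve_a₆]
    refine Valuation.map_sub_le v (Valuation.map_sub_le v (Valuation.map_sub_le v
      (Valuation.map_add_le v (Valuation.map_add_le v (Valuation.map_add_le v hW.a₆ ?_) ?_) ?_)
      ?_) ?_) ?_
    · exact val_mul_le_one hr hW.a₄
    · exact val_mul_le_one (val_pow_le_one hr 2) hW.a₂
    · exact val_pow_le_one hr 3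
    · exact val_mul_le_one ht hW.a₃
    · exact val_pow_le_one ht 2
    · exact val_mul_le_one (val_mul_le_one hr ht) hW.a₁

/-! ### `NodeData` of a curve in the normal form `a₃ = a₆ = 0`, `v a₄ < 1` -/

/-- `v x < 1` and `v 48 ≤ 1` -/
theorem val_fortyeight_mul_lt {x : K} (hx : v x < 1) : v (48 * x) < 1 := by
  have h48 : v (48 : K) ≤ 1 := by
    have : (48 : K) = 4 * 4 * 3 := by norm_num
    rw [this]
    exact val_mul_le_one (val_mul_le_one val_four_le_one val_four_le_one) val_three_le_one
  exact val_mul_lt_one_right h48 hx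

/-- **(a1)** a curve with `a₃ = a₆ = 0`, `v a₄ < 1`, `Δ ≠ 0`, `v c₄ = 1` and integral coefficients
carries `NodeData`: the two tangent directions at the node are distinct modulo the maximal
ideal. -/
theorem exists_nodeData [IsAlgClosed K] (hW : IntegralCoeffs v W) (ha₃ : W.a₃ = 0)
    (ha₆ : W.a₆ = 0) (ha₄ : v W.a₄ < 1) (hΔ0 : W.Δ ≠ 0) (hc₄ : v W.c₄ = 1) :
    ∃ α β : K, NodeData v W α β := by
  obtain ⟨α, hα⟩ := exists_root_quadratic (one_ne_zero (α := K)) W.a₁ (-W.a₂)
  refine ⟨α, -W.a₁ - α, ha₃, ha₆, hW.a₁, hW.a₂, ha₄, ?_, by ring, ?_, ?_⟩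
  · -- `a₄ ≠ 0` from `Δ = a₄² (b₂² - 64 a₄)`
    intro h0
    apply hΔ0
    simp only [WeierstrassCurve.Δ, b₂, b₄, b₆, b₈, ha₃, ha₆, h0]
    ring
  · -- `α β = -a₂`
    linear_combination (-1 : K) * hα
  · -- `v (α - β) = 1` from `(α - β)² = b₂`, `c₄ = b₂² - 48 a₄`
    have hsq : (α - (-W.a₁ - α)) ^ 2 = W.b₂ := by
      simp only [b₂]
      linear_combination 4 * hα
    have hb₂sq : W.b₂ ^ 2 = W.c₄ + 48 * W.a₄ := by
      simp only [c₄, b₄, ha₃]
      ring
    have h1 : v (W.b₂ ^ 2) = 1 := by
      rw [hb₂sq, ← hc₄]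
      exact Valuation.map_add_eq_of_lt_left v (by rw [hc₄]; exact val_fortyeight_mul_lt ha₄)
    have h2 : v W.b₂ = 1 := by
      rw [map_pow, pow_two] at h1
      exact eq_one_of_mul_self_eq_one h1
    have h3 : v (α - (-W.a₁ - α)) * v (α - (-W.a₁ - α)) = 1 := by
      rw [← map_mul, ← pow_two, hsq, h2]
    exact eq_one_of_mul_self_eq_one h3

/-- **(a2)** multiplicative reduction ⇒ some integral translate of `W` carries `NodeData`
(= (M2) + (a0) + (a1)). -/
theorem exists_shift_nodeData [IsAlgClosed K] (hW : IntegralCoeffs v W) (hΔ0 : W.Δ ≠ 0)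
    (hΔ : v W.Δ < 1) (hc₄ : v W.c₄ = 1) (h2 : (2 : K) ≠ 0) :
    ∃ r t α β : K, v r ≤ 1 ∧ v t ≤ 1 ∧ NodeData v (shiftCurve W r t) α β := by
  obtain ⟨r, t, hr, ht, h3, h6, h4⟩ := exists_node_shift hW hΔ0 hΔ hc₄ h2
  obtain ⟨α, β, hN⟩ := exists_nodeData (integralCoeffs_shift hW hr ht) h3 h6 h4
    (by rw [shiftCurve_Δ]; exact hΔ0) (by rw [shiftCurve_c₄]; exact hc₄)
  exact ⟨r, t, α, β, hr, ht, hN⟩

/-! ### transport to `W`'s own coordinates -/

/-- the partial derivative in `x` is translation invariant -/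
theorem partial_x_shift (W : WeierstrassCurve K) (r t x y : K) :
    (shiftCurve W r t).a₁ * y -
        (3 * x ^ 2 + 2 * (shiftCurve W r t).a₂ * x + (shiftCurve W r t).a₄) =
      W.a₁ * (y + t) - (3 * (x + r) ^ 2 + 2 * W.a₂ * (x + r) + W.a₄) := by
  simp only [shiftCurve_a₁, shiftCurve_a₂, shiftCurve_a₄]
  ring

/-- the partial derivative in `y` is translation invariant -/
theorem partial_y_shift (W : WeierstrassCurve K) (r t x y : K) :
    2 * y + (shiftCurve W r t).a₁ * x + (shiftCurve W r t).a₃ =
      2 * (y + t) + W.a₁ * (x + r) + W.a₃ := by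
  simp only [shiftCurve_a₁, shiftCurve_a₃]
  ring

/-- **(b)** a point of the translated curve with unit `x`-coordinate is, in `W`'s own coordinates,
an integral point with a unit partial derivative. -/
theorem unit_partial_of_shift {r t α β : K} (hr : v r ≤ 1) (ht : v t ≤ 1)
    (hN : NodeData v (shiftCurve W r t) α β) {x' y' : K}
    (h' : (shiftCurve W r t).toAffine.Equation x' y') (hx' : v x' = 1) :
    v (x' + r) ≤ 1 ∧ v (y' + t) ≤ 1 ∧
      (v (W.a₁ * (y' + t) - (3 * (x' + r) ^ 2 + 2 * W.a₂ * (x' + r) + W.a₄)) = 1 ∨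
        v (2 * (y' + t) + W.a₁ * (x' + r) + W.a₃) = 1) := by
  have hy' : v y' ≤ 1 := y_integral hN.integralCoeffs h' hx'.le
  refine ⟨Valuation.map_add_le v hx'.le hr, Valuation.map_add_le v hy' ht, ?_⟩
  have := partial_unit_of_unit_x hN h' hx'
  rwa [partial_x_shift, partial_y_shift] at this

/-- **(c)** a point of the translated curve with non-integral `x`-coordinate lies in the kernel of
reduction of `W`. -/
theorem inKer_of_shift [DecidableEq K] {r t : K} (hr : v r ≤ 1) {x' y' : K}
    (h' : (shiftCurve W r t).toAffine.Nonsingular x' y') (hx' : 1 < v x') :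
    InKer v W ((shiftEquiv W r t).symm (Point.some x' y' h')) := by
  rw [shiftEquiv_symm_some]
  refine Or.inr ⟨x' + r, y' + t, _, rfl, ?_⟩
  rw [Valuation.map_add_eq_of_lt_left v (lt_of_le_of_lt hr hx')]
  exact hx'

/-- **(d)** a point `P'` of `E₀` of the translated curve, transported to `W`: either it lies in the
kernel of reduction of `W`, or it is an integral affine point of `W` with a unit partial
derivative. -/
theorem cases_of_inE0_shift [DecidableEq K] {r t α β : K} (hr : v r ≤ 1) (ht : v t ≤ 1)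
    (hN : NodeData v (shiftCurve W r t) α β) {P' : (shiftCurve W r t).toAffine.Point}
    (hP' : InE0 v (shiftCurve W r t) P') :
    InKer v W ((shiftEquiv W r t).symm P') ∨
      ∃ (x y : K) (h : W.toAffine.Nonsingular x y),
        (shiftEquiv W r t).symm P' = Point.some x y h ∧ v x ≤ 1 ∧ v y ≤ 1 ∧
          (v (W.a₁ * y - (3 * x ^ 2 + 2 * W.a₂ * x + W.a₄)) = 1 ∨
            v (2 * y + W.a₁ * x + W.a₃) = 1) := by
  rcases hP' with rfl | ⟨x', y', h', rfl, hx'⟩
  · left
    rw [map_zero]
    exact Or.inl rfl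
  · rcases lt_or_eq_of_le hx' with hlt | heq
    · exact Or.inl (inKer_of_shift hr h' hlt)
    · right
      obtain ⟨h1, h2, h3⟩ := unit_partial_of_shift hr ht hN h'.1 heq.symm
      exact ⟨x' + r, y' + t, (shiftCurve_nonsingular_add W r t x' y').mpr h',
        shiftEquiv_symm_some W r t h', h1, h2, h3⟩

end Fermat.Agent.EC.Mult.NodeCoords
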