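import Mathlib
import Fermat.Agent.S05.Defs
import Fermat.Agent.S05.Shift
import Fermat.Agent.EC.Mult.Fixed
import Fermat.Agent.EC.Mult.NodeCoords
import Fermat.Agent.EC.Mult.Cyclic

/-!
# Program E (S58), block MULT, node (M5a): the abstract glue

`K` an algebraically closed field with `2 ≠ 0` and a valuation `v`, `W` a Weierstrass curve over `K`
(ANY model, all residue characteristics) with `v`-integral coefficients, `Δ ≠ 0`, `v Δ < 1`,
`v c₄ = 1` (multiplicative reduction).  For `m` a `v`-unit:

**`exists_addOrderOf_eq_fixed`** — there is a point `P` of `W` of exact order `m` fixed by EVERY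
inertia-like endomorphism (`S05.InertiaLike v W σ f → f P = P`).

Proof: (M2)+(M3) `NodeCoords.exists_shift_nodeData` gives an integral translate `W'` of `W` with
`S05.NodeData`; (M4) `Cyclic.exists_inE0_addOrderOf_eq` gives `P' ∈ E₀(W')` of exact order `m`;
`P := (shiftEquiv W r t).symm P'`; (M3) `NodeCoords.cases_of_inE0_shift` puts `P` in one of the two
cases of (M1) `Fixed.map_eq_self_of_inKer` / `Fixed.map_eq_self_of_unit_partial`.  The shift is only
used to FIND the point: the inertia-like endomorphism is the one of `W` itself, no compatibility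
with the shift is needed.
-/

set_option autoImplicit false

namespace Fermat.Agent.EC.Mult.Glue

open WeierstrassCurve WeierstrassCurve.Affine Fermat.Agent.S05

variable {K : Type*} [Field K] [DecidableEq K] [IsAlgClosed K] {Γ₀ : Type*}
  [LinearOrderedCommGroupWithZero Γ₀]
variable {v : Valuation K Γ₀}

/-- A point of exact order `m` fixed by inertia, given an integral translate with node data. -/
theorem exists_addOrderOf_eq_fixed_of_nodeData {W : WeierstrassCurve K}
    (hW : IntegralCoeffs v W) (hΔ0 : W.Δ ≠ 0) {r t α β : K} (hr : v r ≤ 1) (ht : v t ≤ 1)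
    (hN : NodeData v (shiftCurve W r t) α β) {m : ℕ} (hm : v (m : K) = 1) :
    ∃ P : W.toAffine.Point, addOrderOf P = m ∧
      ∀ (σ : K →+* K) (f : W.toAffine.Point →+ W.toAffine.Point),
        InertiaLike v W σ f → f P = P := by
  have hΔ' : (shiftCurve W r t).Δ ≠ 0 := by rw [shiftCurve_Δ]; exact hΔ0
  obtain ⟨P', hE0, hord⟩ := Cyclic.exists_inE0_addOrderOf_eq hN hΔ' hm
  refine ⟨(shiftEquiv W r t).symm P', ?_, ?_⟩
  · rw [AddEquiv.addOrderOf_eq]; exact hord
  · intro σ f hf
    have hT : m • (shiftEquiv W r t).symm P' = 0 := by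
      rw [← map_nsmul, ← hord, addOrderOf_nsmul_eq_zero, map_zero]
    rcases NodeCoords.cases_of_inE0_shift hr ht hN hE0 with hK | ⟨x, y, h, hP, hx, hy, hns⟩
    · exact Fixed.map_eq_self_of_inKer f hW hm hK hT
    · rw [hP] at hT ⊢
      exact Fixed.map_eq_self_of_unit_partial hW hf hm h hx hy hns hT

/-- **A point of exact order `m` fixed by inertia** on a curve with multiplicative reduction,
`m` prime to the residue characteristic. -/
theorem exists_addOrderOf_eq_fixed {W : WeierstrassCurve K} (hW : IntegralCoeffs v W)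
    (hΔ0 : W.Δ ≠ 0) (hΔ : v W.Δ < 1) (hc₄ : v W.c₄ = 1) (h2 : (2 : K) ≠ 0) {m : ℕ}
    (hm : v (m : K) = 1) :
    ∃ P : W.toAffine.Point, addOrderOf P = m ∧
      ∀ (σ : K →+* K) (f : W.toAffine.Point →+ W.toAffine.Point),
        InertiaLike v W σ f → f P = P := by
  obtain ⟨r, t, α, β, hr, ht, hN⟩ := NodeCoords.exists_shift_nodeData hW hΔ0 hΔ hc₄ h2
  exact exists_addOrderOf_eq_fixed_of_nodeData hW hΔ0 hr ht hN hm

end Fermat.Agent.EC.Mult.Glue
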