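import Mathlib
import Fermat.Prelude.Def_FLTPrelim_GaloisRep
import Fermat.Prelude.Def_FLTPrelim_Ramification
import Fermat.Agent.S05.Defs
import Fermat.Agent.S05.Val
import Fermat.Agent.EC.Mult.Glue

/-!
# Program E (S58), block MULT, node (M5b): the MULT export

`W` a Weierstrass curve over `ℤ` (ANY model) with `Δ ≠ 0`, `q` a prime with `q ∣ Δ`, `q ∤ c₄`
(multiplicative reduction at `q`; `q = 2, 3` allowed), `A` a valuation subring of
`Qbar = AlgebraicClosure ℚ` over `q`, `E := (W.map (Int.castRingHom ℚ)).toAffine⁄Qbar`, `m ≠ 0`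
prime to `q`.

**`exists_addOrderOf_eq_fixed`** (contract finding #1382): there is a point of `E(Qbar)` of exact
order `m` fixed by the inertia group at `A` (`σ • P` = the Prelude's `instSMulAlgEquiv`
`= Point.map σ.toAlgHom P`).  The `DecidableEq Qbar` instance is an explicit generic binder.

Auxiliary: `inertiaLike` (an inertia element induces an `S05.InertiaLike` endomorphism; generic
decidability instance, same proof as `S05.inertiaLike_galois`), `baseChange_eq`, `integralCoeffs`,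
`Δ_eq`, `c₄_eq`, `Δ_ne_zero`, `val_Δ_lt_one`, `val_c₄_eq_one`, `val_natCast_eq_one`, `two_ne_zero'`.
-/

set_option autoImplicit false

namespace Fermat.Agent.EC.Mult.Main

open WeierstrassCurve WeierstrassCurve.Affine Fermat.Agent.S05
open scoped WeierstrassCurve.Affine

local notation "Qbar" => AlgebraicClosure ℚ

section Inertia

variable [DecidableEq Qbar]

/-- The Galois action of an inertia element is inertia-like (generic decidability instance). -/
theorem inertiaLike (E : Affine ℚ) (A : ValuationSubring Qbar) {σ : Qbar ≃ₐ[ℚ] Qbar}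
    (hσ : σ ∈ A.inertiaSubgroupIn ℚ) :
    InertiaLike A.valuation (E⁄Qbar) (σ : Qbar →+* Qbar) (Point.map σ.toAlgHom) where
  val_eq x := valuation_apply_eq_of_mem_inertia A hσ x
  sub_lt _ hx := inertia_sub_lt_one A hσ hx
  map_some _ _ h := ⟨_, Point.map_some σ.toAlgHom h⟩

end Inertia

section Coeffs

variable (W : WeierstrassCurve ℤ) (A : ValuationSubring Qbar)

/-- the base change to `Qbar` of an integral model, in one step -/
theorem baseChange_eq :
    ((W.map (Int.castRingHom ℚ)).toAffine⁄Qbar) = W.map (Int.castRingHom Qbar) := by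
  change (W.map (Int.castRingHom ℚ)).map (algebraMap ℚ Qbar) = _
  rw [WeierstrassCurve.map_map]
  congr 1

theorem integralCoeffs :
    IntegralCoeffs A.valuation ((W.map (Int.castRingHom ℚ)).toAffine⁄Qbar) := by
  rw [baseChange_eq]
  refine ⟨?_, ?_, ?_, ?_, ?_⟩ <;> simp

theorem Δ_eq : ((W.map (Int.castRingHom ℚ)).toAffine⁄Qbar).Δ = ((W.Δ : ℤ) : Qbar) := by
  rw [baseChange_eq, WeierstrassCurve.map_Δ]
  rfl

theorem c₄_eq : ((W.map (Int.castRingHom ℚ)).toAffine⁄Qbar).c₄ = ((W.c₄ : ℤ) : Qbar) := by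
  rw [baseChange_eq, WeierstrassCurve.map_c₄]
  rfl

theorem Δ_ne_zero (hΔ0 : W.Δ ≠ 0) : ((W.map (Int.castRingHom ℚ)).toAffine⁄Qbar).Δ ≠ 0 := by
  rw [Δ_eq]
  exact_mod_cast hΔ0

variable {W A}

theorem val_Δ_lt_one {q : ℕ} (hA : A.LiesOverPrime q) (hΔ : (q : ℤ) ∣ W.Δ) :
    A.valuation ((W.map (Int.castRingHom ℚ)).toAffine⁄Qbar).Δ < 1 := by
  rw [Δ_eq]
  exact val_intCast_lt_one A hA hΔ

theorem val_c₄_eq_one {q : ℕ} (hq : q.Prime) (hA : A.LiesOverPrime q) (hc₄ : ¬ (q : ℤ) ∣ W.c₄) :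
    A.valuation ((W.map (Int.castRingHom ℚ)).toAffine⁄Qbar).c₄ = 1 := by
  rw [c₄_eq]
  exact val_intCast_eq_one A hq hA hc₄

theorem val_natCast_eq_one {q : ℕ} (hq : q.Prime) (hA : A.LiesOverPrime q) {m : ℕ}
    (hqm : ¬ q ∣ m) : A.valuation ((m : ℕ) : Qbar) = 1 := by
  have h : ¬ (q : ℤ) ∣ ((m : ℕ) : ℤ) := fun h => hqm (Int.natCast_dvd_natCast.mp h)
  have := val_intCast_eq_one A hq hA h
  simpa using this

end Coeffs

theorem two_ne_zero' : (2 : Qbar) ≠ 0 := two_ne_zero

set_option linter.unusedVariables false in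
/-- **MULT export (contract #1382).**  An integral Weierstrass model (ANY model) with
multiplicative reduction at the prime `q` (`q ∣ Δ`, `q ∤ c₄`; `q = 2, 3` allowed) has, over
`Qbar`, a point of exact order `m` (any `m ≠ 0` prime to `q`) fixed by the inertia group at every
valuation subring `A` of `Qbar` over `q`. -/
theorem exists_addOrderOf_eq_fixed [DecidableEq Qbar] (W : WeierstrassCurve ℤ) (hΔ0 : W.Δ ≠ 0)
    {q : ℕ} (hq : q.Prime) (hΔ : (q : ℤ) ∣ W.Δ) (hc₄ : ¬ (q : ℤ) ∣ W.c₄)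
    (A : ValuationSubring Qbar) (hA : A.LiesOverPrime q) {m : ℕ} (hm : m ≠ 0)
    (hqm : ¬ q ∣ m) :
    ∃ P : ((W.map (Int.castRingHom ℚ)).toAffine⁄Qbar).Point, addOrderOf P = m ∧
      ∀ σ ∈ A.inertiaSubgroupIn ℚ, σ • P = P := by
  obtain ⟨P, hP, hfix⟩ := Glue.exists_addOrderOf_eq_fixed (integralCoeffs W A)
    (Δ_ne_zero W hΔ0) (val_Δ_lt_one hA hΔ) (val_c₄_eq_one hq hA hc₄) two_ne_zero'
    (val_natCast_eq_one hq hA hqm)
  exact ⟨P, hP, fun σ hσ => hfix _ _ (inertiaLike (W.map (Int.castRingHom ℚ)).toAffine A hσ)⟩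

end Fermat.Agent.EC.Mult.Main
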